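/-
Program A (S29/S42), descent by derivations (sub-leaf (DER) of helper42's route; helper11).

* `exists_derivation_extend`          : a derivation of `P` extends to a formally étale
                                         `P`-algebra `T`.
* `exists_derivation_apply_ne_zero`   : in a field `Ω ⊇ ℚ`, every element transcendental over `ℚ`
                                         is moved by some `ℚ`-derivation of `Ω`.
* `isAlgebraic_of_forall_derivation`  : an element killed by every derivation is algebraic.
-/
import Mathlib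

set_option autoImplicit false

noncomputable section

open MvPolynomial KaehlerDifferential TensorProduct

namespace Fermat.Agent.S29.H11

/-- A derivation of `P` (over `R`) extends to every formally étale `P`-algebra `T`. -/
theorem exists_derivation_extend (R P T : Type*) [CommRing R] [CommRing P] [CommRing T]
    [Algebra R P] [Algebra R T] [Algebra P T] [IsScalarTower R P T] [Algebra.FormallyEtale P T]
    (d : Derivation R P P) :
    ∃ D : Derivation R T T, ∀ p : P, D (algebraMap P T p) = algebraMap P T (d p) := by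
  let d' : Derivation R P T := (Algebra.linearMap P T).compDer d
  let l : Ω[P⁄R] →ₗ[P] T := d'.liftKaehlerDifferential
  let L : Ω[T⁄R] →ₗ[T] T :=
    (LinearMap.liftBaseChange T l) ∘ₗ (tensorKaehlerEquivOfFormallyEtale R P T).symm.toLinearMap
  refine ⟨L.compDer (KaehlerDifferential.D R T), fun p => ?_⟩
  show L (KaehlerDifferential.D R T (algebraMap P T p)) = _
  simp only [L, LinearMap.coe_comp, LinearEquiv.coe_coe, Function.comp_apply,
    tensorKaehlerEquivOfFormallyEtale_symm_D_algebraMap, LinearMap.liftBaseChange_tmul, one_smul, l,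
    Derivation.liftKaehlerDifferential_comp_D, d']
  rfl

/-- (DER) in a field containing `ℚ`, every element transcendental over `ℚ` is moved by some
`ℚ`-derivation. -/
theorem exists_derivation_apply_ne_zero {Ω : Type*} [Field Ω] [Algebra ℚ Ω] {a : Ω}
    (ha : Transcendental ℚ a) : ∃ D : Derivation ℚ Ω Ω, D a ≠ 0 := by
  classical
  have hs : AlgebraicIndepOn ℚ id ({a} : Set Ω) :=
    (algebraicIndependent_singleton_iff (⟨a, rfl⟩ : ({a} : Set Ω))).mpr ha
  obtain ⟨B, haB, hB⟩ := exists_isTranscendenceBasis_superset hs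
  let x : B → Ω := (↑)
  have hx : AlgebraicIndependent ℚ x := hB.1
  let algPΩ : Algebra (MvPolynomial B ℚ) Ω := (aeval x).toRingHom.toAlgebra
  have hinj : Function.Injective (algebraMap (MvPolynomial B ℚ) Ω) :=
    algebraicIndependent_iff_injective_aeval.1 hx
  have towΩ : IsScalarTower ℚ (MvPolynomial B ℚ) Ω :=
    IsScalarTower.of_algebraMap_eq fun r => by
      show algebraMap ℚ Ω r = aeval x (algebraMap ℚ (MvPolynomial B ℚ) r)
      rw [AlgHom.commutes]
  let algFΩ : Algebra (FractionRing (MvPolynomial B ℚ)) Ω :=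
    (IsFractionRing.lift hinj).toAlgebra
  have towF : IsScalarTower (MvPolynomial B ℚ) (FractionRing (MvPolynomial B ℚ)) Ω :=
    IsScalarTower.of_algebraMap_eq fun p => (IsFractionRing.lift_algebraMap hinj p).symm
  have et1 : Algebra.FormallyEtale (MvPolynomial B ℚ) (FractionRing (MvPolynomial B ℚ)) :=
    Algebra.FormallyEtale.of_isLocalization (nonZeroDivisors (MvPolynomial B ℚ))
  have alg : Algebra.IsAlgebraic (FractionRing (MvPolynomial B ℚ)) Ω := by
    refine ⟨fun ω => ?_⟩
    have h1 : IsAlgebraic (Algebra.adjoin ℚ (Set.range x)) ω := hB.isAlgebraic.isAlgebraic ω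
    have h2 : IsAlgebraic (MvPolynomial B ℚ) ω := by
      refine IsAlgebraic.of_ringHom_of_comp_eq (S := Algebra.adjoin ℚ (Set.range x))
        (B := Ω) (hx.aevalEquiv : MvPolynomial B ℚ →+* Algebra.adjoin ℚ (Set.range x))
        (RingHom.id Ω) h1 hx.aevalEquiv.surjective Function.injective_id ?_
      ext p
      · simp [RingHom.algebraMap_toAlgebra]
      · simp [RingHom.algebraMap_toAlgebra]
    exact h2.extendScalars (IsFractionRing.injective (MvPolynomial B ℚ) _)
  have et3 : Algebra.FormallyEtale (FractionRing (MvPolynomial B ℚ)) Ω :=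
    Algebra.FormallyEtale.of_isSeparable _ Ω
  have et4 : Algebra.FormallyEtale (MvPolynomial B ℚ) Ω :=
    Algebra.FormallyEtale.comp (MvPolynomial B ℚ) (FractionRing (MvPolynomial B ℚ)) Ω
  have haB' : a ∈ B := haB (Set.mem_singleton a)
  obtain ⟨D, hD⟩ := exists_derivation_extend ℚ (MvPolynomial B ℚ) Ω (pderiv (⟨a, haB'⟩ : B))
  refine ⟨D, ?_⟩
  have h1 : D a = 1 := by
    have h2 := hD (X (⟨a, haB'⟩ : B))
    have h3 : algebraMap (MvPolynomial B ℚ) Ω (X (⟨a, haB'⟩ : B)) = a := by
      show aeval x (X (⟨a, haB'⟩ : B)) = a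
      rw [aeval_X]
    have h4 : algebraMap (MvPolynomial B ℚ) Ω (pderiv (⟨a, haB'⟩ : B) (X (⟨a, haB'⟩ : B))) = 1 := by
      rw [pderiv_X_self, map_one]
    rw [h3, h4] at h2
    exact h2
  rw [h1]
  exact one_ne_zero

/-- an element of a field of characteristic zero killed by every `ℚ`-derivation is algebraic
over `ℚ`. -/
theorem isAlgebraic_of_forall_derivation {Ω : Type*} [Field Ω] [Algebra ℚ Ω] {a : Ω}
    (h : ∀ D : Derivation ℚ Ω Ω, D a = 0) : IsAlgebraic ℚ a := by
  by_contra hcon
  obtain ⟨D, hD⟩ := exists_derivation_apply_ne_zero (Ω := Ω) (a := a) hcon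
  exact hD (h D)

/-- an element killed by every `ℚ`-derivation lies in the image of any algebraically closed
subfield. -/
theorem exists_map_eq_of_forall_derivation {k Ω : Type*} [Field k] [IsAlgClosed k]
    [Algebra ℚ k] [Field Ω] [Algebra ℚ Ω] (ι : k →+* Ω) {a : Ω}
    (h : ∀ D : Derivation ℚ Ω Ω, D a = 0) : ∃ c : k, ι c = a := by
  have halg : IsAlgebraic ℚ a := isAlgebraic_of_forall_derivation h
  let _ : Algebra k Ω := ι.toAlgebra
  have halg' : IsAlgebraic k a := by
    obtain ⟨p, hp0, hp⟩ := halg
    refine ⟨p.map (algebraMap ℚ k),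
      (Polynomial.map_ne_zero_iff (algebraMap ℚ k).injective).mpr hp0, ?_⟩
    have hcomp : (algebraMap k Ω).comp (algebraMap ℚ k) = algebraMap ℚ Ω := RingHom.ext_rat _ _
    rw [Polynomial.aeval_def, Polynomial.eval₂_map, hcomp]
    exact hp
  have hint : IsIntegral k a := halg'.isIntegral
  have hq : (minpoly k a).leadingCoeff = 1 := minpoly.monic hint
  have hdeg : (minpoly k a).degree = 1 :=
    IsAlgClosed.degree_eq_one_of_irreducible k (minpoly.irreducible hint)
  have h0 : Polynomial.aeval a (minpoly k a) = 0 := minpoly.aeval k a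
  rw [Polynomial.eq_X_add_C_of_degree_eq_one hdeg, hq, Polynomial.C_1, one_mul, map_add,
    Polynomial.aeval_X, Polynomial.aeval_C, add_eq_zero_iff_eq_neg] at h0
  refine ⟨-(minpoly k a).coeff 0, ?_⟩
  rw [map_neg]
  exact h0.symm

end Fermat.Agent.S29.H11
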