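/-
Program A (S29/S42), descent by derivations (sub-leaves (FF1)-(FF4) of helper42's route; helper11).

For `bi := S42.H11.baseIncl k Ω F₀ : F_k →+* F_Ω` (coefficientwise base change of the Prelude's
`laurentBaseChange`):

* `isAlgebraic_base`               : `F_k` algebraic over `k(x₀)`  ⟹  `F_Ω` algebraic over `Ω(bi x₀)`.
* `adjoin_base_eq_top`             : `F_k = k(S)`  ⟹  `F_Ω = Ω(bi '' S)`.
* `transcendental_base`            : `x₀` transcendental over `k`  ⟹  `bi x₀` transcendental over `Ω`.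
* `derivation_algebraMap_eq_zero`  : a `ℚ`-derivation of `Ω` kills the image of a field `k`
                                     algebraic over `ℚ`.
-/
import Mathlib
import Fermat.Agent.S42.H11.LinDisj

set_option autoImplicit false

noncomputable section

open HahnSeries IntermediateField ModularCurve TensorProduct

namespace Fermat.Agent.S29.H11

variable {k Ω : Type*} [Field k] [Field Ω] [Algebra ℚ k] [Algebra ℚ Ω] [Algebra k Ω]
variable (F₀ : IntermediateField ℚ (LaurentSeries ℚ))

/-- `baseIncl` on constants. -/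
theorem baseIncl_algebraMap (a : k) :
    S42.H11.baseIncl k Ω F₀ (algebraMap k (laurentBaseChange k F₀) a)
      = algebraMap Ω (laurentBaseChange Ω F₀) (algebraMap k Ω a) := by
  apply Subtype.ext
  show coeffMap (algebraMap k Ω) (algebraMap k (LaurentSeries k) a)
    = algebraMap Ω (LaurentSeries Ω) (algebraMap k Ω a)
  exact S42.H11.coeffMap_algebraMap_base Ω a

/-- If a subfield `T` of `F_Ω` contains `Ω` and `bi s` for all `s ∈ S`, it contains
`bi (k(S))`. -/
theorem baseIncl_mem_of_mem_adjoin {S : Set (laurentBaseChange k F₀)}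
    (T : Subfield (laurentBaseChange Ω F₀))
    (hc : ∀ c : Ω, algebraMap Ω (laurentBaseChange Ω F₀) c ∈ T)
    (hS : ∀ s ∈ S, S42.H11.baseIncl k Ω F₀ s ∈ T) {w : laurentBaseChange k F₀}
    (hw : w ∈ IntermediateField.adjoin k S) : S42.H11.baseIncl k Ω F₀ w ∈ T := by
  have h : (IntermediateField.adjoin k S).toSubfield
      ≤ T.comap (S42.H11.baseIncl k Ω F₀) := by
    rw [adjoin_toSubfield, Subfield.closure_le]
    rintro _ (⟨a, rfl⟩ | hs)
    · show S42.H11.baseIncl k Ω F₀ (algebraMap k (laurentBaseChange k F₀) a) ∈ T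
      rw [baseIncl_algebraMap]
      exact hc _
    · exact hS _ hs
  exact h hw

/-- If a subfield `T` of `F_Ω` contains `Ω` and `bi (F_k)`, it is everything. -/
theorem mem_of_baseIncl_mem (T : Subfield (laurentBaseChange Ω F₀))
    (hc : ∀ c : Ω, algebraMap Ω (laurentBaseChange Ω F₀) c ∈ T)
    (hE : ∀ u : laurentBaseChange k F₀, S42.H11.baseIncl k Ω F₀ u ∈ T)
    (z : laurentBaseChange Ω F₀) : z ∈ T := by
  have hbm : ∀ t : Ω ⊗[k] laurentBaseChange k F₀, S42.H11.baseMap k Ω F₀ t ∈ T := by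
    intro t
    induction t using TensorProduct.induction_on with
    | zero => rw [S42.H11.baseMap_zero']; exact T.zero_mem
    | tmul c u =>
        rw [S42.H11.baseMap_tmul]
        exact T.mul_mem (hc c) (hE u)
    | add a b ha hb => rw [S42.H11.baseMap_add']; exact T.add_mem ha hb
  obtain ⟨a, b, _, hab⟩ := S42.H11.exists_eq_div k Ω F₀ z
  rw [hab]
  exact T.div_mem (hbm a) (hbm b)

/-- (FF2) generators of `F_k/k` generate `F_Ω/Ω`. -/
theorem adjoin_base_eq_top (S : Set (laurentBaseChange k F₀))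
    (hS : IntermediateField.adjoin k S = ⊤) :
    IntermediateField.adjoin Ω (S42.H11.baseIncl k Ω F₀ '' S) = ⊤ := by
  rw [eq_top_iff]
  intro z _
  have hc : ∀ c : Ω, algebraMap Ω (laurentBaseChange Ω F₀) c
      ∈ (IntermediateField.adjoin Ω (S42.H11.baseIncl k Ω F₀ '' S)).toSubfield :=
    fun c => (IntermediateField.adjoin Ω (S42.H11.baseIncl k Ω F₀ '' S)).algebraMap_mem c
  refine mem_of_baseIncl_mem (k := k) F₀ _ hc (fun u => ?_) z
  refine baseIncl_mem_of_mem_adjoin F₀ (S := S) _ hc (fun s hs => ?_) (by rw [hS]; trivial)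
  exact subset_adjoin Ω _ ⟨s, hs, rfl⟩

/-- (FF1) if `F_k` is algebraic over `k(x₀)` then `F_Ω` is algebraic over `Ω(bi x₀)`. -/
theorem isAlgebraic_base (x₀ : laurentBaseChange k F₀)
    [Algebra.IsAlgebraic k⟮x₀⟯ (laurentBaseChange k F₀)] :
    Algebra.IsAlgebraic Ω⟮S42.H11.baseIncl k Ω F₀ x₀⟯ (laurentBaseChange Ω F₀) := by
  -- the ring homomorphism `k(x₀) → Ω(bi x₀)` induced by `bi`
  have hcE : ∀ c : Ω, algebraMap Ω (laurentBaseChange Ω F₀) c
      ∈ (Ω⟮S42.H11.baseIncl k Ω F₀ x₀⟯).toSubfield :=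
    fun c => (Ω⟮S42.H11.baseIncl k Ω F₀ x₀⟯).algebraMap_mem c
  have hmem : ∀ w : k⟮x₀⟯, S42.H11.baseIncl k Ω F₀ (w : laurentBaseChange k F₀)
      ∈ Ω⟮S42.H11.baseIncl k Ω F₀ x₀⟯ := by
    intro w
    refine baseIncl_mem_of_mem_adjoin F₀ (S := {x₀}) _ hcE (fun s hs => ?_) w.2
    rw [Set.mem_singleton_iff] at hs
    rw [hs]
    exact mem_adjoin_simple_self Ω _
  let f : k⟮x₀⟯ →+* Ω⟮S42.H11.baseIncl k Ω F₀ x₀⟯ :=
    RingHom.codRestrict ((S42.H11.baseIncl k Ω F₀).comp
      (algebraMap k⟮x₀⟯ (laurentBaseChange k F₀))) (Ω⟮S42.H11.baseIncl k Ω F₀ x₀⟯) hmem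
  have hf : Function.Injective f := RingHom.injective f
  have hcomp : RingHom.comp (algebraMap (Ω⟮S42.H11.baseIncl k Ω F₀ x₀⟯) (laurentBaseChange Ω F₀)) f
      = RingHom.comp (S42.H11.baseIncl k Ω F₀) (algebraMap k⟮x₀⟯ (laurentBaseChange k F₀)) :=
    RingHom.ext fun _ => rfl
  -- the algebraic closure of `Ω(bi x₀)` in `F_Ω` contains `Ω` and `bi (F_k)`
  refine ⟨fun z => ?_⟩
  have hz : z ∈ (algebraicClosure (Ω⟮S42.H11.baseIncl k Ω F₀ x₀⟯)
      (laurentBaseChange Ω F₀)).toSubfield := by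
    refine mem_of_baseIncl_mem (k := k) F₀ _ (fun c => ?_) (fun u => ?_) z
    · rw [IntermediateField.mem_toSubfield, mem_algebraicClosure_iff]
      exact isAlgebraic_algebraMap
        (⟨algebraMap Ω (laurentBaseChange Ω F₀) c, hcE c⟩ : Ω⟮S42.H11.baseIncl k Ω F₀ x₀⟯)
    · rw [IntermediateField.mem_toSubfield, mem_algebraicClosure_iff]
      exact (Algebra.IsAlgebraic.isAlgebraic (R := k⟮x₀⟯) u).ringHom_of_comp_eq f
        (S42.H11.baseIncl k Ω F₀) hf hcomp
  rwa [IntermediateField.mem_toSubfield, mem_algebraicClosure_iff] at hz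

/-- (FF3) a transcendental element of `F_k/k` stays transcendental in `F_Ω/Ω`. -/
theorem transcendental_base [IsAlgClosed Ω] {x₀ : laurentBaseChange k F₀}
    (hx : Transcendental k x₀) : Transcendental Ω (S42.H11.baseIncl k Ω F₀ x₀) := by
  intro halg
  apply hx
  -- over the algebraically closed `Ω`, an algebraic element is a constant
  have hint : IsIntegral Ω (S42.H11.baseIncl k Ω F₀ x₀) := halg.isIntegral
  have hdeg : (minpoly Ω (S42.H11.baseIncl k Ω F₀ x₀)).degree = 1 :=
    IsAlgClosed.degree_eq_one_of_irreducible Ω (minpoly.irreducible hint)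
  obtain ⟨c, hc⟩ := minpoly.mem_range_of_degree_eq_one Ω _ hdeg
  have hc' : coeffMap (algebraMap k Ω) (x₀ : LaurentSeries k)
      = algebraMap Ω (LaurentSeries Ω) c := (congrArg Subtype.val hc).symm
  rw [algebraMap_laurentSeries_eq_single] at hc'
  -- so all coefficients of `x₀` except the constant one vanish
  have hx0 : (x₀ : LaurentSeries k) = algebraMap k (LaurentSeries k) ((x₀ : LaurentSeries k).coeff 0) := by
    rw [algebraMap_laurentSeries_eq_single]
    ext n
    have h1 := congrArg (fun z : LaurentSeries Ω => z.coeff n) hc'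
    simp only [coeffMap_coeff] at h1
    by_cases hn : n = 0
    · subst hn; simp
    · rw [HahnSeries.coeff_single_of_ne hn] at h1 ⊢
      exact (algebraMap k Ω).injective (by rw [h1, map_zero])
  have hx0' : x₀ = algebraMap k (laurentBaseChange k F₀) ((x₀ : LaurentSeries k).coeff 0) :=
    Subtype.ext hx0
  rw [hx0']
  exact isAlgebraic_algebraMap _

/-- (FF4) a `ℚ`-derivation of `Ω` kills the image of a field `k` algebraic over `ℚ`. -/
theorem derivation_algebraMap_eq_zero [Algebra.IsAlgebraic ℚ k] (D : Derivation ℚ Ω Ω) (a : k) :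
    D (algebraMap k Ω a) = 0 := by
  have tow : IsScalarTower ℚ k Ω :=
    IsScalarTower.of_algebraMap_eq' (S42.H11.algebraMap_comp_rat k Ω).symm
  have ha : IsIntegral ℚ a := (Algebra.IsAlgebraic.isAlgebraic a).isIntegral
  have h0 : Polynomial.aeval (algebraMap k Ω a) (minpoly ℚ a) = 0 := by
    rw [Polynomial.aeval_algebraMap_apply, minpoly.aeval, map_zero]
  have hsep : (minpoly ℚ a).Separable := (minpoly.irreducible ha).separable
  have h1 := D.map_aeval (minpoly ℚ a) (algebraMap k Ω a)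
  rw [h0, map_zero] at h1
  have h2 := hsep.aeval_derivative_ne_zero h0
  rcases smul_eq_zero.mp h1.symm with h | h
  · exact absurd h h2
  · exact h

end Fermat.Agent.S29.H11
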