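/-
Program A (S29/S42), descent by derivations (sub-leaf (LDER) of helper42's route; helper11).

Coefficientwise action of a derivation `D` of `Ω` (over `ℚ`) on Laurent series `Ω((q))`:

* `coeffDer D`                       : `LaurentSeries Ω →+ LaurentSeries Ω`
* `coeffDer_coeff`                   : `(coeffDer D x).coeff n = D (x.coeff n)`
* `coeffDer_mul`                     : Leibniz rule
* `coeffDer_algebraMap`              : `coeffDer D (algebraMap c) = algebraMap (D c)`
* `coeffDer_coeffEmb`                : `coeffDer D (coeffEmb Ω y) = 0`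
* `coeffDer_inv`                     : `coeffDer D x⁻¹ = -(coeffDer D x) * x⁻¹ ^ 2`
* `coeffDer_mem_laurentBaseChange`   : `laurentBaseChange Ω F₀` is stable under `coeffDer D`
* `coeffDer_coeffMap`                : `coeffDer D` kills the base change of series over a
                                       subfield of constants of `D`.
-/
import Mathlib
import Fermat.Prelude.Def_ModularCurve_LaurentCoeff

set_option autoImplicit false

noncomputable section

open HahnSeries IntermediateField ModularCurve

namespace Fermat.Agent.S29.H11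

variable {Ω : Type*} [Field Ω] [Algebra ℚ Ω]

/-- Coefficientwise action of a derivation on Laurent series. -/
def coeffDer (D : Derivation ℚ Ω Ω) : LaurentSeries Ω →+ LaurentSeries Ω where
  toFun x := x.map D
  map_zero' := by
    ext n
    simp
  map_add' x y := by
    ext n
    simp

@[simp]
theorem coeffDer_coeff (D : Derivation ℚ Ω Ω) (x : LaurentSeries Ω) (n : ℤ) :
    (coeffDer D x).coeff n = D (x.coeff n) := rfl

theorem support_coeffDer_subset (D : Derivation ℚ Ω Ω) (x : LaurentSeries Ω) :
    (coeffDer D x).support ⊆ x.support := by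
  intro i hi
  rw [HahnSeries.mem_support] at hi ⊢
  intro h0
  apply hi
  rw [coeffDer_coeff, h0, map_zero]

/-- Leibniz rule for the coefficientwise derivation. -/
theorem coeffDer_mul (D : Derivation ℚ Ω Ω) (x y : LaurentSeries Ω) :
    coeffDer D (x * y) = coeffDer D x * y + x * coeffDer D y := by
  ext n
  rw [coeffDer_coeff, HahnSeries.coeff_add,
    HahnSeries.coeff_mul_left' x.isPWO_support (support_coeffDer_subset D x),
    HahnSeries.coeff_mul_right' y.isPWO_support (support_coeffDer_subset D y),
    HahnSeries.coeff_mul, map_sum, ← Finset.sum_add_distrib]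
  refine Finset.sum_congr rfl fun ij _ => ?_
  rw [Derivation.leibniz, coeffDer_coeff, coeffDer_coeff, smul_eq_mul, smul_eq_mul]
  ring

theorem coeffDer_single (D : Derivation ℚ Ω Ω) (k : ℤ) (c : Ω) :
    coeffDer D (HahnSeries.single k c) = HahnSeries.single k (D c) := by
  ext m
  rw [coeffDer_coeff]
  rcases eq_or_ne m k with rfl | hm
  · simp [HahnSeries.coeff_single_same]
  · simp [HahnSeries.coeff_single_of_ne hm]

theorem coeffDer_algebraMap (D : Derivation ℚ Ω Ω) (c : Ω) :
    coeffDer D (algebraMap Ω (LaurentSeries Ω) c) = algebraMap Ω (LaurentSeries Ω) (D c) := by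
  rw [algebraMap_laurentSeries_eq_single, algebraMap_laurentSeries_eq_single, coeffDer_single]

theorem coeffDer_one (D : Derivation ℚ Ω Ω) : coeffDer D (1 : LaurentSeries Ω) = 0 := by
  have h : (1 : LaurentSeries Ω) = algebraMap Ω (LaurentSeries Ω) 1 := (map_one _).symm
  rw [h, coeffDer_algebraMap, Derivation.map_one_eq_zero, map_zero]

theorem coeffDer_coeffEmb (D : Derivation ℚ Ω Ω) (y : LaurentSeries ℚ) :
    coeffDer D (coeffEmb Ω y) = 0 := by
  ext n
  rw [coeffDer_coeff, coeffEmb_coeff, Derivation.map_algebraMap]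
  rfl

/-- `coeffDer D` kills the base change of any series with coefficients in a subfield on which
`D` vanishes. -/
theorem coeffDer_coeffMap {k : Type*} [Field k] (ι : k →+* Ω) (D : Derivation ℚ Ω Ω)
    (hD : ∀ a : k, D (ι a) = 0) (x : LaurentSeries k) : coeffDer D (coeffMap ι x) = 0 := by
  ext n
  rw [coeffDer_coeff, coeffMap_coeff, hD]
  rfl

theorem coeffDer_neg (D : Derivation ℚ Ω Ω) (x : LaurentSeries Ω) :
    coeffDer D (-x) = -coeffDer D x := map_neg _ _

/-- derivative of an inverse. -/
theorem coeffDer_inv (D : Derivation ℚ Ω Ω) (x : LaurentSeries Ω) :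
    coeffDer D x⁻¹ = -(coeffDer D x) * x⁻¹ ^ 2 := by
  rcases eq_or_ne x 0 with rfl | hx
  · simp
  · have h1 : coeffDer D (x * x⁻¹) = 0 := by
      rw [mul_inv_cancel₀ hx, coeffDer_one]
    rw [coeffDer_mul] at h1
    have h2 : x * coeffDer D x⁻¹ = -(coeffDer D x * x⁻¹) := by
      rw [eq_neg_iff_add_eq_zero, add_comm]
      exact h1
    have h3 : coeffDer D x⁻¹ = x⁻¹ * (x * coeffDer D x⁻¹) := by
      rw [← mul_assoc, inv_mul_cancel₀ hx, one_mul]
    rw [h3, h2]
    ring

/-- the derivative of a quotient, in logarithmic form: `D(f)/f` for `f = a / b`. -/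
theorem coeffDer_div (D : Derivation ℚ Ω Ω) (a b : LaurentSeries Ω) :
    coeffDer D (a / b) = coeffDer D a / b - a * coeffDer D b / b ^ 2 := by
  rw [div_eq_mul_inv, coeffDer_mul, coeffDer_inv]
  ring

/-- `laurentBaseChange Ω F₀` is stable under the coefficientwise derivation. -/
theorem coeffDer_mem_laurentBaseChange (D : Derivation ℚ Ω Ω)
    {F₀ : IntermediateField ℚ (LaurentSeries ℚ)} {x : LaurentSeries Ω}
    (hx : x ∈ laurentBaseChange Ω F₀) : coeffDer D x ∈ laurentBaseChange Ω F₀ := by
  have hx' := hx
  rw [mem_laurentBaseChange_iff] at hx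
  induction hx using Subfield.closure_induction with
  | mem y hy =>
      rcases hy with ⟨a, rfl⟩ | ⟨z, hz, rfl⟩
      · rw [coeffDer_algebraMap]
        exact (laurentBaseChange Ω F₀).algebraMap_mem _
      · rw [coeffDer_coeffEmb]
        exact zero_mem _
  | one =>
      rw [coeffDer_one]
      exact zero_mem _
  | add x y hx hy ihx ihy =>
      rw [map_add]
      exact add_mem (ihx (mem_laurentBaseChange_iff.mpr hx)) (ihy (mem_laurentBaseChange_iff.mpr hy))
  | neg x hx ihx =>
      rw [map_neg]
      exact neg_mem (ihx (mem_laurentBaseChange_iff.mpr hx))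
  | inv x hx ihx =>
      rw [coeffDer_inv]
      have hxm : x ∈ laurentBaseChange Ω F₀ := mem_laurentBaseChange_iff.mpr hx
      exact mul_mem (neg_mem (ihx hxm)) (pow_mem (inv_mem hxm) 2)
  | mul x y hx hy ihx ihy =>
      rw [coeffDer_mul]
      have hxm : x ∈ laurentBaseChange Ω F₀ := mem_laurentBaseChange_iff.mpr hx
      have hym : y ∈ laurentBaseChange Ω F₀ := mem_laurentBaseChange_iff.mpr hy
      exact add_mem (mul_mem (ihx hxm) hym) (mul_mem hxm (ihy hym))

end Fermat.Agent.S29.H11
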